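/-
FF19 -> S19 (+S32), block H [HOPF] (architect helper34).  File 1 : the FORMAL part.

`H` a commutative `R`-algebra "of functions on the abelian group `G` with values in `K`": a family of
algebra homs `ev x : H →ₐ[R] K` (`x : G`) such that `H`, `H ⊗ H`, `H ⊗ (H ⊗ H)` inject into the functions
on `G`, `G²`, `G³`; a comultiplication, a counit and an antipode which are, on functions, `φ ↦ φ (x + y)`,
`φ ↦ φ 0`, `φ ↦ φ (-x)`.  Then `H` is a cocommutative Hopf algebra and `ev x * ev y = ev (x + y)` for the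
convolution product.
-/
import Mathlib

set_option autoImplicit false

noncomputable section

namespace Fermat.Agent.FF19.HA

open TensorProduct Algebra.TensorProduct

/-- the formal data. -/
structure PreHopf (R H K G : Type) [CommRing R] [CommRing H] [Algebra R H] [CommRing K]
    [Algebra R K] [AddCommGroup G] where
  ev : G → (H →ₐ[R] K)
  Δ : H →ₐ[R] H ⊗[R] H
  ε : H →ₐ[R] R
  S : H →ₗ[R] H
  inj1 : ∀ h : H, (∀ x, ev x h = 0) → h = 0
  inj2 : ∀ t : H ⊗[R] H, (∀ x y, productMap (ev x) (ev y) t = 0) → t = 0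
  inj3 : ∀ t : H ⊗[R] (H ⊗[R] H),
    (∀ x y z, productMap (ev x) (productMap (ev y) (ev z)) t = 0) → t = 0
  hΔ : ∀ x y h, productMap (ev x) (ev y) (Δ h) = ev (x + y) h
  hε : ∀ h, algebraMap R K (ε h) = ev 0 h
  hS : ∀ x h, ev x (S h) = ev (-x) h

namespace PreHopf

variable {R H K G : Type} [CommRing R] [CommRing H] [Algebra R H] [CommRing K] [Algebra R K]
  [AddCommGroup G] (D : PreHopf R H K G)

theorem ext1 {h h' : H} (e : ∀ x, D.ev x h = D.ev x h') : h = h' :=
  sub_eq_zero.1 (D.inj1 _ fun x => by rw [map_sub, e x, sub_self])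

theorem ext2 {t t' : H ⊗[R] H}
    (e : ∀ x y, productMap (D.ev x) (D.ev y) t = productMap (D.ev x) (D.ev y) t') : t = t' :=
  sub_eq_zero.1 (D.inj2 _ fun x y => by rw [map_sub, e x y, sub_self])

theorem ext3 {t t' : H ⊗[R] (H ⊗[R] H)}
    (e : ∀ x y z, productMap (D.ev x) (productMap (D.ev y) (D.ev z)) t
      = productMap (D.ev x) (productMap (D.ev y) (D.ev z)) t') : t = t' :=
  sub_eq_zero.1 (D.inj3 _ fun x y z => by rw [map_sub, e x y z, sub_self])

theorem hΔ' (x y : G) : (productMap (D.ev x) (D.ev y)).comp D.Δ = D.ev (x + y) :=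
  AlgHom.ext fun h => D.hΔ x y h

theorem assoc_aux (f g h : H →ₐ[R] K) :
    (productMap f (productMap g h)).comp (Algebra.TensorProduct.assoc R R R H H H).toAlgHom
      = productMap (productMap f g) h := by
  ext a <;> simp [Algebra.TensorProduct.one_def]

theorem map_left_aux (P : H ⊗[R] H →ₐ[R] K) (g : H →ₐ[R] K) (Δ : H →ₐ[R] H ⊗[R] H) :
    (productMap P g).comp (Algebra.TensorProduct.map Δ (AlgHom.id R H)) = productMap (P.comp Δ) g := by
  ext a <;> simp

theorem map_right_aux (f : H →ₐ[R] K) (P : H ⊗[R] H →ₐ[R] K) (Δ : H →ₐ[R] H ⊗[R] H) :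
    (productMap f P).comp (Algebra.TensorProduct.map (AlgHom.id R H) Δ) = productMap f (P.comp Δ) := by
  ext a <;> simp

theorem coassoc : (Algebra.TensorProduct.assoc R R R H H H).toAlgHom.comp
      ((Algebra.TensorProduct.map D.Δ (.id R H)).comp D.Δ)
      = (Algebra.TensorProduct.map (.id R H) D.Δ).comp D.Δ := by
  refine AlgHom.ext fun h => D.ext3 fun x y z => ?_
  have e1 := congrArg (fun F : H ⊗[R] H →ₐ[R] K => F (D.Δ h))
    (map_left_aux (productMap (D.ev x) (D.ev y)) (D.ev z) D.Δ)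
  have e2 := congrArg (fun F : H ⊗[R] H →ₐ[R] K => F (D.Δ h))
    (map_right_aux (D.ev x) (productMap (D.ev y) (D.ev z)) D.Δ)
  have e3 := congrArg (fun F : (H ⊗[R] H) ⊗[R] H →ₐ[R] K =>
    F (Algebra.TensorProduct.map D.Δ (.id R H) (D.Δ h))) (assoc_aux (D.ev x) (D.ev y) (D.ev z))
  simp only [AlgHom.comp_apply, D.hΔ'] at e1 e2 e3 ⊢
  rw [e3, e1, e2, D.hΔ, D.hΔ, add_assoc]

theorem rTensor : (Algebra.TensorProduct.map D.ε (.id R H)).comp D.Δ
      = (Algebra.TensorProduct.lid R H).symm := by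
  refine AlgHom.ext fun h => ?_
  apply (Algebra.TensorProduct.lid R H).injective
  rw [show ((Algebra.TensorProduct.lid R H).symm : H →ₐ[R] R ⊗[R] H) h
    = (Algebra.TensorProduct.lid R H).symm h from rfl, AlgEquiv.apply_symm_apply]
  refine D.ext1 fun x => ?_
  have e : ((D.ev x).comp ((Algebra.TensorProduct.lid R H).toAlgHom.comp
      (Algebra.TensorProduct.map D.ε (.id R H)))) = productMap (D.ev 0) (D.ev x) := by
    ext a
    · simp [← D.hε, Algebra.algebraMap_eq_smul_one]
    · simp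
  have e' := congrArg (fun F : H ⊗[R] H →ₐ[R] K => F (D.Δ h)) e
  simp only [AlgHom.comp_apply] at e'
  rw [D.hΔ, zero_add] at e'
  exact e'

theorem lTensor : (Algebra.TensorProduct.map (.id R H) D.ε).comp D.Δ
      = (Algebra.TensorProduct.rid R R H).symm := by
  refine AlgHom.ext fun h => ?_
  apply (Algebra.TensorProduct.rid R R H).injective
  rw [show ((Algebra.TensorProduct.rid R R H).symm : H →ₐ[R] H ⊗[R] R) h
    = (Algebra.TensorProduct.rid R R H).symm h from rfl, AlgEquiv.apply_symm_apply]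
  refine D.ext1 fun x => ?_
  have e : ((D.ev x).comp ((Algebra.TensorProduct.rid R R H).toAlgHom.comp
      (Algebra.TensorProduct.map (.id R H) D.ε))) = productMap (D.ev x) (D.ev 0) := by
    ext a
    · simp
    · simp [← D.hε, Algebra.algebraMap_eq_smul_one]
  have e' := congrArg (fun F : H ⊗[R] H →ₐ[R] K => F (D.Δ h)) e
  simp only [AlgHom.comp_apply] at e'
  rw [D.hΔ, add_zero] at e'
  exact e'

/-- the bialgebra structure. -/
@[reducible] def bialgebra : Bialgebra R H :=
  Bialgebra.ofAlgHom D.Δ D.ε D.coassoc D.rTensor D.lTensor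

theorem anti_r : LinearMap.mul' R H ∘ₗ D.S.rTensor H ∘ₗ D.Δ.toLinearMap
    = Algebra.linearMap R H ∘ₗ D.ε.toLinearMap := by
  refine LinearMap.ext fun h => D.ext1 fun x => ?_
  have e : (D.ev x).toLinearMap ∘ₗ LinearMap.mul' R H ∘ₗ D.S.rTensor H
      = (productMap (D.ev (-x)) (D.ev x)).toLinearMap := by
    refine TensorProduct.ext' fun a b => ?_
    simp [D.hS]
  have e' := congrArg (fun F : H ⊗[R] H →ₗ[R] K => F (D.Δ h)) e
  simp only [LinearMap.comp_apply, AlgHom.toLinearMap_apply] at e' ⊢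
  rw [e', D.hΔ, neg_add_cancel, Algebra.linearMap_apply, AlgHom.commutes, D.hε]

theorem anti_l : LinearMap.mul' R H ∘ₗ D.S.lTensor H ∘ₗ D.Δ.toLinearMap
    = Algebra.linearMap R H ∘ₗ D.ε.toLinearMap := by
  refine LinearMap.ext fun h => D.ext1 fun x => ?_
  have e : (D.ev x).toLinearMap ∘ₗ LinearMap.mul' R H ∘ₗ D.S.lTensor H
      = (productMap (D.ev x) (D.ev (-x))).toLinearMap := by
    refine TensorProduct.ext' fun a b => ?_
    simp [D.hS]
  have e' := congrArg (fun F : H ⊗[R] H →ₗ[R] K => F (D.Δ h)) e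
  simp only [LinearMap.comp_apply, AlgHom.toLinearMap_apply] at e' ⊢
  rw [e', D.hΔ, add_neg_cancel, Algebra.linearMap_apply, AlgHom.commutes, D.hε]

/-- **the Hopf algebra structure.** -/
@[reducible] def hopf : HopfAlgebra R H :=
  { D.bialgebra with
    antipode := D.S
    mul_antipode_rTensor_comul := D.anti_r
    mul_antipode_lTensor_comul := D.anti_l }

theorem cocomm : @Coalgebra.IsCocomm R H _ _ _ D.hopf.toCoalgebra := by
  let _ := D.hopf
  refine ⟨LinearMap.ext fun h => D.ext2 fun x y => ?_⟩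
  have e : (productMap (D.ev x) (D.ev y)).toLinearMap ∘ₗ (TensorProduct.comm R H H).toLinearMap
      = (productMap (D.ev y) (D.ev x)).toLinearMap := by
    refine TensorProduct.ext' fun a b => ?_
    simp [mul_comm]
  have e' := congrArg (fun F : H ⊗[R] H →ₗ[R] K => F (D.Δ h)) e
  simp only [LinearMap.comp_apply, AlgHom.toLinearMap_apply] at e'
  change productMap (D.ev x) (D.ev y) ((TensorProduct.comm R H H) (D.Δ h))
    = productMap (D.ev x) (D.ev y) (D.Δ h)
  rw [D.hΔ]
  refine Eq.trans e' ?_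
  rw [D.hΔ, add_comm]

/-- the convolution product of two evaluations. -/
theorem conv (x y : G) :
    letI := D.hopf
    (WithConv.toConv (D.ev x) * WithConv.toConv (D.ev y) : WithConv (H →ₐ[R] K))
      = WithConv.toConv (D.ev (x + y)) := by
  let _ := D.hopf
  rw [AlgHom.convMul_def]
  congr 1
  refine AlgHom.ext fun h => ?_
  rw [← D.hΔ x y h, productMap_eq_comp_map]
  rfl

end PreHopf

end Fermat.Agent.FF19.HA

end
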