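/-
FF19 -> S19 (+S32), block H [HOPF] (architect helper34).  File 2 : DEFINITIONS + INTERFACE.

`R = ℤ_(ℓ) = Rp ℓ`, `Qb = ℚ̄`, `G` a finite abelian group with an action `act` of `G_ℚ`.
An ORDER is an `R`-subalgebra `Hs` of `Map(G, ℚ̄)` with
  (h1) `φ (σ x) = σ (φ x)`,  (h2) `Hs` is a finitely generated `R`-module,  (h3) `Hs` separates the points,
  (h4) `φ (x + y) = ∑ a_i x * b_i y` with `a_i, b_i ∈ Hs`.
**CRITERION** (`Stmt_Crit`) : if `G` has an order, then `Flat.IsFlatMod ℓ G act`, which is the conclusion of S19.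

   Crit ⟸ `PreHopf` (Abs.lean, done) + Free + Ind (⟸ Descent, Fix, ActSurj) + Inj2 + Inj3 + Delta + Eps + Anti + Pts
   Pts ⟸ Avoid + Ext.        RL = ring theory of `ℤ_(ℓ)`.

Every `Stmt_xxx` is one work package: prove `theorem stmt_xxx : (deps →) Stmt_xxx` in the file named in the
task, `import Fermat.Agent.FF19.HA.Interface`, namespace `Fermat.Agent.FF19.HA`, helper lemmas prefixed by the
file name.  NEVER edit Abs.lean / Interface.lean.
-/
import Fermat.Agent.FF19.HA.Abs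
import Fermat.Agent.TW56.Flat.Defs

set_option autoImplicit false

noncomputable section

namespace Fermat.Agent.FF19.HA

open TensorProduct Algebra.TensorProduct
open _root_.Fermat.Agent.S53 (GQ)
open _root_.Fermat.Agent.TW56.Flat (Qb Rp IsFlatMod)

/-! ## Definitions -/

/-- evaluation at a point, on a subalgebra of functions. -/
def evA {R K X : Type} [CommRing R] [CommRing K] [Algebra R K] (Hs : Subalgebra R (X → K)) (x : X) :
    Hs →ₐ[R] K :=
  (Pi.evalAlgHom R (fun _ : X => K) x).comp Hs.val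

@[simp] theorem evA_apply {R K X : Type} [CommRing R] [CommRing K] [Algebra R K]
    (Hs : Subalgebra R (X → K)) (x : X) (h : Hs) : evA Hs x h = (h : X → K) x := rfl

/-- (h4) for one function. -/
def HasComul {R K G : Type} [CommRing R] [CommRing K] [Algebra R K] [Add G]
    (Hs : Subalgebra R (G → K)) (φ : G → K) : Prop :=
  ∃ (n : ℕ) (a b : Fin n → G → K), (∀ i, a i ∈ Hs) ∧ (∀ i, b i ∈ Hs) ∧
    ∀ x y, φ (x + y) = ∑ i, a i x * b i y

/-- **orders.** -/
structure IsOrder (ℓ : ℕ) {G : Type} [AddCommGroup G] (act : GQ → G → G)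
    (Hs : Subalgebra (Rp ℓ) (G → Qb)) : Prop where
  zero : ∀ σ, act σ 0 = 0
  equiv : ∀ φ ∈ Hs, ∀ (σ : GQ) (x : G), φ (act σ x) = σ (φ x)
  fg : Hs.toSubmodule.FG
  sep : ∀ x y : G, x ≠ y → ∃ φ ∈ Hs, φ x ≠ φ y
  comul : ∀ φ ∈ Hs, HasComul Hs φ

/-- `G` has an order. -/
def HasOrder (ℓ : ℕ) (G : Type) [AddCommGroup G] (act : GQ → G → G) : Prop :=
  ∃ Hs : Subalgebra (Rp ℓ) (G → Qb), IsOrder ℓ act Hs

/-! ## the ring `ℤ_(ℓ)` and the field `ℚ̄` -/

/-- H-RL.  [`TW56.Flat.Free_valSub ℓ : ValuationSubring ℚ` (`TW56/Flat/Free.lean`) has the same underlying type: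
`(inferInstance : IsIntegrallyClosed (Free_valSub ℓ))`, `(inferInstance : IsFractionRing (Free_valSub ℓ) ℚ)`.
PIR: every `x ≠ 0` is a unit times `ℓ ^ n` (`IsDiscreteValuationRing.ofHasUnitMulPowIrreducibleFactorization`), or:
a valuation ring is Bézout, and it is Noetherian...; or `IsLocalization` of `ℤ`.] -/
def Stmt_RL : Prop :=
  ∀ (ℓ : ℕ) [Fact ℓ.Prime],
    IsPrincipalIdealRing (Rp ℓ) ∧ IsIntegrallyClosed (Rp ℓ) ∧ IsFractionRing (Rp ℓ) ℚ

/-- H-FIX.  [`InfiniteGalois.mem_bot_iff_fixed` / `IsGalois.mem_bot_iff_fixed`, `IntermediateField.mem_bot`.] -/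
def Stmt_Fix : Prop :=
  ∀ a : Qb, (∀ σ : GQ, σ a = a) → ∃ q : ℚ, algebraMap ℚ Qb q = a

/-- H-EXT.  two `R`-algebra homs to `ℚ̄` with `ker g ⊆ ker f` differ by an automorphism.
[`B = g.range`, `τ : B →ₐ[R] Qb`, `τ (g a) = f a` is well defined.  `τ` is injective: `b ≠ 0` in `B` is algebraic
over `R` (over `ℚ`, clear denominators), `c_n b^n + .. + c_0 = 0`, `c_0 ≠ 0`, so `τ b = 0` would give `c_0 = 0`.
`IsAlgClosed.lift` for `Qb / B` and the algebra structure `τ.toRingHom.toAlgebra` on the target gives a ring hom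
`Qb → Qb` extending `τ`; it is a `ℚ`-algebra hom (`RingHom.toRatAlgHom`), bijective
(`Algebra.IsAlgebraic.algHom_bijective`).  Or: `MvPolynomial A ℚ`, `aeval g`, `aeval f`,
`Ideal.Quotient.liftₐ`, `AlgHom.liftNormal`.] -/
def Stmt_Ext : Prop :=
  ∀ (ℓ : ℕ) [Fact ℓ.Prime] (A : Type) [CommRing A] [Algebra (Rp ℓ) A] (f g : A →ₐ[Rp ℓ] Qb),
    (∀ a, g a = 0 → f a = 0) → ∃ σ : GQ, ∀ a, f a = σ (g a)

/-- H-DESCENT (Artin).  equivariant functions which are independent over `ℚ` are independent over `ℚ̄`.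
[Suppose not; take a non trivial relation `∑ c_i e_i = 0` with support of minimal cardinality, normalised by
`c_{i₀} = 1`.  For `σ`: `0 = σ (∑ c_i e_i x) = ∑ σ c_i * e_i (σ x)`, and `act σ` is onto: `∑ σ c_i • e_i = 0`.  The
difference has smaller support, so `σ c_i = c_i` for all `σ`, `c_i ∈ ℚ` (H-FIX): contradiction.  Strong induction
on the cardinality of the support (`Fintype.linearIndependent_iff`).] -/
def Stmt_Descent : Prop :=
  ∀ (X : Type) (act : GQ → X → X), (∀ σ, Function.Surjective (act σ)) →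
    ∀ (n : ℕ) (e : Fin n → X → Qb), (∀ i σ x, e i (act σ x) = σ (e i x)) →
    LinearIndependent ℚ e → LinearIndependent Qb e

/-! ## consequences of the axioms of an order -/

/-- H-ACT.  `act σ` is bijective.  [injective by `sep` + `equiv`; `Finite.injective_iff_surjective`.] -/
def Stmt_ActSurj : Prop :=
  ∀ (ℓ : ℕ) (G : Type) [AddCommGroup G] [Finite G] (act : GQ → G → G)
    (Hs : Subalgebra (Rp ℓ) (G → Qb)), IsOrder ℓ act Hs → ∀ σ, Function.Bijective (act σ)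

/-- H-FREE.  [`Module.Finite` from `fg` (`Module.Finite.iff_fg`); torsion free: `r • φ = 0`, `r ≠ 0`, values in a
field of characteristic `0`; `Module.free_of_finite_type_torsion_free'` with H-RL.] -/
def Stmt_Free : Prop :=
  ∀ (ℓ : ℕ) [Fact ℓ.Prime] (G : Type) [AddCommGroup G] (act : GQ → G → G)
    (Hs : Subalgebra (Rp ℓ) (G → Qb)), IsOrder ℓ act Hs →
    Module.Free (Rp ℓ) Hs ∧ Module.Finite (Rp ℓ) Hs

/-- H-IND.  an `R`-basis of an order is linearly independent over `ℚ̄`.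
[independent over `ℚ`: multiply a relation by a common denominator (`∏ (c i).den`, an integer, so the new
coefficients are integers, in `Rp ℓ`), use `b.linearIndependent`; then H-DESCENT, H-ACT.] -/
def Stmt_Ind : Prop :=
  ∀ (ℓ : ℕ) [Fact ℓ.Prime] (G : Type) [AddCommGroup G] [Finite G] (act : GQ → G → G)
    (Hs : Subalgebra (Rp ℓ) (G → Qb)), IsOrder ℓ act Hs →
    ∀ (n : ℕ) (b : Module.Basis (Fin n) (Rp ℓ) Hs),
      LinearIndependent Qb (fun i => ((b i : Hs) : G → Qb))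

/-- H-INJ2 (generic).  [`t = ∑ c_ij • b_i ⊗ b_j` (`Module.Basis.tensorProduct b b`, `Basis.sum_repr`);
`∑_ij c_ij b_i x * b_j y = 0` for all `x, y`.  Fix `y`: independence over `K` gives `∑_j c_ij b_j y = 0` for all
`i`, `y`; again: `c_ij = 0` in `K`, so in `R` (`algebraMap R K` injective).] -/
def Stmt_Inj2 : Prop :=
  ∀ (R K X : Type) [CommRing R] [Field K] [Algebra R K], Function.Injective (algebraMap R K) →
    ∀ (Hs : Subalgebra R (X → K)) (n : ℕ) (b : Module.Basis (Fin n) R Hs),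
    LinearIndependent K (fun i => ((b i : Hs) : X → K)) →
    ∀ t : Hs ⊗[R] Hs, (∀ x y, productMap (evA Hs x) (evA Hs y) t = 0) → t = 0

/-- H-INJ3 (generic).  [the same with the basis `b.tensorProduct (b.tensorProduct b)`.] -/
def Stmt_Inj3 : Prop :=
  ∀ (R K X : Type) [CommRing R] [Field K] [Algebra R K], Function.Injective (algebraMap R K) →
    ∀ (Hs : Subalgebra R (X → K)) (n : ℕ) (b : Module.Basis (Fin n) R Hs),
    LinearIndependent K (fun i => ((b i : Hs) : X → K)) →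
    ∀ t : Hs ⊗[R] (Hs ⊗[R] Hs),
      (∀ x y z, productMap (evA Hs x) (productMap (evA Hs y) (evA Hs z)) t = 0) → t = 0

/-- H-DELTA (generic).  the comultiplication.
[for `h : Hs` choose `n, a, b` by (h4), `Δ h := ∑ ⟨a i, _⟩ ⊗ₜ ⟨b i, _⟩`; then
`productMap (ev x) (ev y) (Δ h) = h (x + y)` (`productMap_apply_tmul`, `map_sum`).  By the injectivity hypothesis `Δ` is
additive, multiplicative, unital, commutes with `algebraMap` (compare the images under all
`productMap (ev x) (ev y)`, which are algebra homs).] -/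
def Stmt_Delta : Prop :=
  ∀ (R K G : Type) [CommRing R] [CommRing K] [Algebra R K] [Add G] (Hs : Subalgebra R (G → K)),
    (∀ t : Hs ⊗[R] Hs, (∀ x y, productMap (evA Hs x) (evA Hs y) t = 0) → t = 0) →
    (∀ φ ∈ Hs, HasComul Hs φ) →
    ∃ Δ : Hs →ₐ[R] Hs ⊗[R] Hs, ∀ x y h, productMap (evA Hs x) (evA Hs y) (Δ h) = evA Hs (x + y) h

/-- H-EPS.  the counit: `φ 0 ∈ ℤ_(ℓ)`.
[`φ 0` is fixed by `G_ℚ` (`equiv`, `zero`), so rational (H-FIX).  `φ` is integral over `R` (`Hs` is a finite `R`-module: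
`IsIntegral.of_finite` / `Algebra.IsIntegral.of_finite`), so `φ 0 = evA Hs 0 φ` is integral over `R` (`IsIntegral.map`), so
is `q` (`isIntegral_algebraMap_iff` / `IsIntegral.tower...`, `algebraMap ℚ Qb` injective); H-RL:
`IsIntegrallyClosed.algebraMap_eq_of_integral`.  `ε` is an algebra hom because `algebraMap R Qb` is injective.] -/
def Stmt_Eps : Prop :=
  ∀ (ℓ : ℕ) [Fact ℓ.Prime] (G : Type) [AddCommGroup G] (act : GQ → G → G)
    (Hs : Subalgebra (Rp ℓ) (G → Qb)), IsOrder ℓ act Hs →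
    ∃ ε : Hs →ₐ[Rp ℓ] Rp ℓ, ∀ h, algebraMap (Rp ℓ) Qb (ε h) = evA Hs 0 h

/-- H-ANTI.  the antipode.
[for all `m : ℕ` and `φ ∈ Hs`: `(x ↦ φ (m • x)) ∈ Hs`.  `m = 0`: the constant `φ 0 = algebraMap R _ (ε φ)` (H-EPS).
`m + 1`: `φ (m • x + x) = ∑ a_i (m • x) * b_i x`.  `- x = (Nat.card G - 1) • x` (`card_nsmul_eq_zero'`).
`S h := ⟨fun x => h (-x), _⟩` is linear.] -/
def Stmt_Anti : Prop :=
  ∀ (ℓ : ℕ) [Fact ℓ.Prime] (G : Type) [AddCommGroup G] [Finite G] (act : GQ → G → G)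
    (Hs : Subalgebra (Rp ℓ) (G → Qb)), IsOrder ℓ act Hs →
    ∃ S : Hs →ₗ[Rp ℓ] Hs, ∀ x h, evA Hs x (S h) = evA Hs (-x) h

/-- H-AVOID (generic).  [otherwise choose `h_x` with `h_x x = 0`, `f h_x ≠ 0`; `∏_x h_x = 0` but
`f (∏ h_x) = ∏ f h_x ≠ 0` (`cases nonempty_fintype X`, `map_prod`, `Finset.prod_ne_zero_iff`).] -/
def Stmt_Avoid : Prop :=
  ∀ (R K X : Type) [CommRing R] [Field K] [Algebra R K] [Finite X] (Hs : Subalgebra R (X → K))
    (f : Hs →ₐ[R] K), ∃ x : X, ∀ h, evA Hs x h = 0 → f h = 0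

/-- H-PTS.  the points of an order.  [H-AVOID, H-EXT: `f h = σ (h x) = h (act σ x)`.] -/
def Stmt_Pts : Prop :=
  ∀ (ℓ : ℕ) [Fact ℓ.Prime] (G : Type) [AddCommGroup G] [Finite G] (act : GQ → G → G)
    (Hs : Subalgebra (Rp ℓ) (G → Qb)), IsOrder ℓ act Hs →
    ∀ f : Hs →ₐ[Rp ℓ] Qb, ∃ x : G, f = evA Hs x

/-! ## the criterion -/

/-- **H-CRIT : THE CRITERION.** -/
def Stmt_Crit : Prop :=
  ∀ (ℓ : ℕ) [Fact ℓ.Prime] (G : Type) [AddCommGroup G] [Finite G] (act : GQ → G → G),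
    HasOrder ℓ G act → IsFlatMod ℓ G act

/-! ## closure properties -/

/-- H-SUB.  stable subgroups.  [`Hs' = Hs.map (restriction along ι)`, restriction
`= Pi.algHom .. fun x' => Pi.evalAlgHom .. (ι x')` or `AlgHom` by hand.] -/
def Stmt_Sub : Prop :=
  ∀ (ℓ : ℕ) (G G' : Type) [AddCommGroup G] [AddCommGroup G'] (act : GQ → G → G)
    (act' : GQ → G' → G') (ι : G' →+ G), Function.Injective ι →
    (∀ σ x, ι (act' σ x) = act σ (ι x)) → HasOrder ℓ G act → HasOrder ℓ G' act'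

/-- H-PROD.  products.  [`Hs = Algebra.adjoin R (pr₁^* H₁ ∪ pr₂^* H₂)` = the span of the products
`(x₁, x₂) ↦ a x₁ * b x₂`; it is the image of `H₁ ⊗ H₂`, so finitely generated.  The set of the `φ` with
`equiv` (resp. `φ ∈ Hs ∧ HasComul Hs φ`) is a subalgebra.] -/
def Stmt_Prod : Prop :=
  ∀ (ℓ : ℕ) (G₁ G₂ : Type) [AddCommGroup G₁] [AddCommGroup G₂] (act₁ : GQ → G₁ → G₁)
    (act₂ : GQ → G₂ → G₂), HasOrder ℓ G₁ act₁ → HasOrder ℓ G₂ act₂ →
    HasOrder ℓ (G₁ × G₂) (fun σ x => (act₁ σ x.1, act₂ σ x.2))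

end Fermat.Agent.FF19.HA

end
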