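/-
FF19 -> S19 (+S32), block H [HOPF] (architect helper34).  File 3 : assembly of the criterion.
-/
import Fermat.Agent.FF19.HA.Interface

set_option autoImplicit false

noncomputable section

namespace Fermat.Agent.FF19.HA

open TensorProduct Algebra.TensorProduct
open _root_.Fermat.Agent.S53 (GQ)
open _root_.Fermat.Agent.TW56.Flat (Qb Rp IsFlatMod)

theorem Crit_algebraMap_injective (ℓ : ℕ) : Function.Injective (algebraMap (Rp ℓ) Qb) := by
  intro a b h
  have h' : algebraMap ℚ Qb (a : ℚ) = algebraMap ℚ Qb (b : ℚ) := h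
  exact Subtype.ext ((algebraMap ℚ Qb).injective h')

theorem crit (hFree : Stmt_Free) (hInd : Stmt_Ind) (hI2 : Stmt_Inj2) (hI3 : Stmt_Inj3)
    (hΔ : Stmt_Delta) (hε : Stmt_Eps) (hS : Stmt_Anti) (hP : Stmt_Pts) : Stmt_Crit := by
  intro ℓ _ G _ _ act ⟨Hs, hO⟩
  obtain ⟨hfree, hfin⟩ := hFree ℓ G act Hs hO
  have hind := hInd ℓ G act Hs hO _ (Module.finBasis (Rp ℓ) Hs)
  have i2 := hI2 (Rp ℓ) Qb G (Crit_algebraMap_injective ℓ) Hs _ (Module.finBasis (Rp ℓ) Hs) hind
  have i3 := hI3 (Rp ℓ) Qb G (Crit_algebraMap_injective ℓ) Hs _ (Module.finBasis (Rp ℓ) Hs) hind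
  obtain ⟨Δ, hΔ'⟩ := hΔ (Rp ℓ) Qb G Hs i2 hO.comul
  obtain ⟨ε, hε'⟩ := hε ℓ G act Hs hO
  obtain ⟨S, hS'⟩ := hS ℓ G act Hs hO
  let D : PreHopf (Rp ℓ) Hs Qb G :=
    { ev := evA Hs, Δ := Δ, ε := ε, S := S
      inj1 := fun h hh => Subtype.ext (funext fun x => hh x)
      inj2 := i2, inj3 := i3, hΔ := hΔ', hε := hε', hS := hS' }
  have hbij : Function.Bijective (fun x : G => (WithConv.toConv (evA Hs x) :
      WithConv (Hs →ₐ[Rp ℓ] Qb))) := by
    constructor
    · intro x y hxy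
      by_contra hne
      obtain ⟨φ, hφ, hφne⟩ := hO.sep x y hne
      apply hφne
      have := congrArg (fun F : WithConv (Hs →ₐ[Rp ℓ] Qb) => F.ofConv ⟨φ, hφ⟩) hxy
      exact this
    · intro f
      obtain ⟨x, hx⟩ := hP ℓ G act Hs hO f.ofConv
      refine ⟨x, ?_⟩
      show WithConv.toConv (evA Hs x) = f
      rw [← hx]
  refine ⟨Hs, inferInstance, D.hopf, hfin, inferInstance, D.cocomm,
    (Equiv.ofBijective _ hbij).symm, ?_, ?_⟩
  · intro f g
    obtain ⟨x, rfl⟩ := hbij.2 f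
    obtain ⟨y, rfl⟩ := hbij.2 g
    have e1 := D.conv x y
    have e2 : ∀ z : G, (Equiv.ofBijective _ hbij).symm
        (WithConv.toConv (evA Hs z) : WithConv (Hs →ₐ[Rp ℓ] Qb)) = z :=
      fun z => Equiv.ofBijective_symm_apply_apply _ hbij z
    refine Eq.trans (congrArg (Equiv.ofBijective _ hbij).symm e1) ?_
    exact (e2 (x + y)).trans (congrArg₂ (· + ·) (e2 x).symm (e2 y).symm)
  · intro σ f g hfg
    obtain ⟨x, rfl⟩ := hbij.2 f
    have e2 : ∀ z : G, (Equiv.ofBijective _ hbij).symm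
        (WithConv.toConv (evA Hs z) : WithConv (Hs →ₐ[Rp ℓ] Qb)) = z :=
      fun z => Equiv.ofBijective_symm_apply_apply _ hbij z
    have e3 : g = WithConv.toConv (evA Hs (act σ x)) := by
      apply WithConv.ofConv_injective
      refine AlgHom.ext fun h => ?_
      have h1 : g h = σ ((h : G → Qb) x) := hfg h
      have h2 := hO.equiv h.1 h.2 σ x
      exact h1.trans h2.symm
    show (Equiv.ofBijective _ hbij).symm g
      = act σ ((Equiv.ofBijective _ hbij).symm (WithConv.toConv (evA Hs x)))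
    rw [e3, e2, e2]

end Fermat.Agent.FF19.HA

end
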